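/-
S14 / K4 (ULOG), second seat (helper9), Part Y-1.

The normalised `ω²` cyclotomic unit `η₂ = ∏_{0<b<p} ((1-ζ^b)/(1-ζ))^(m b)`, `m b = etaExp p 2 b`,
as a unit of `𝓞 K`; `etaRaw = η₂ · ((1-ζ)^M)^p`; `η₂` is an `ω²`-eigen unit (`CoreIface.IsEigenUnit`).
-/
import Mathlib
import Fermat.Agent.S14.CoreIface

set_option autoImplicit false
set_option linter.unusedSectionVars false

namespace Fermat.Agent.S14.ULog9

open NumberField Finset

/-! ### Power sums modulo `p` -/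

section PowerSum

variable {p : ℕ} [hp : Fact p.Prime]

/-- Over `ZMod p`, the nonzero `l`-th power sum is `0` unless `(p - 1) ∣ l`. -/
theorem sum_Ico_pow_eq_zero (l : ℕ) (hl : ¬ (p - 1) ∣ l) :
    (∑ v ∈ Ico 1 p, (v : ZMod p) ^ l) = 0 := by
  have hbij : (∑ v ∈ Ico 1 p, (v : ZMod p) ^ l) = ∑ u : (ZMod p)ˣ, (u : ZMod p) ^ l :=
    Finset.sum_bij'
      (fun v hv ↦ Units.mk0 (v : ZMod p) (mt (ZMod.natCast_eq_zero_iff v p).mp (by
        have := Finset.mem_Ico.mp hv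
        exact Nat.not_dvd_of_pos_of_lt (by omega) this.2)))
      (fun u _ ↦ (u : ZMod p).val)
      (fun _ _ ↦ Finset.mem_univ _)
      (fun u _ ↦ by
        have h1 : (u : ZMod p).val ≠ 0 := (ZMod.val_ne_zero _).mpr u.ne_zero
        have h2 := ZMod.val_lt (u : ZMod p)
        exact Finset.mem_Ico.mpr ⟨by omega, h2⟩)
      (fun v hv ↦ by simp [ZMod.val_cast_of_lt (Finset.mem_Ico.mp hv).2])
      (fun u _ ↦ Units.ext (ZMod.natCast_zmod_val _))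
      (fun _ _ ↦ rfl)
  rw [hbij, FiniteField.sum_pow_units, ZMod.card, if_neg hl]

theorem etaExp_cast (k b : ℕ) : ((etaExp p k b : ℕ) : ZMod p) = (b : ZMod p) ^ (k * (p - 2)) := by
  unfold etaExp
  rw [ZMod.natCast_mod, Nat.cast_pow]

/-- `p ∣ ∑_b m_b` for `p ≥ 5`. -/
theorem dvd_sum_etaExp (h5 : 5 ≤ p) : p ∣ ∑ b ∈ Ico 1 p, etaExp p 2 b := by
  rw [← ZMod.natCast_eq_zero_iff, Nat.cast_sum]
  simp_rw [etaExp_cast]
  refine sum_Ico_pow_eq_zero _ ?_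
  intro h
  have h1 : (p - 1) ∣ 2 * (p - 1) := Dvd.intro_left _ rfl
  have h2 : 2 * (p - 1) = 2 * (p - 2) + 2 := by omega
  rw [h2] at h1
  have h3 : (p - 1) ∣ 2 := (Nat.dvd_add_right h).mp h1
  have := Nat.le_of_dvd (by norm_num) h3
  omega

/-- `m_b · b² ≡ 1 mod p`. -/
theorem etaExp_mul_sq (b : ℕ) (hb : ¬ p ∣ b) : (etaExp p 2 b * b ^ 2) % p = 1 := by
  have h0 : (b : ZMod p) ≠ 0 := by rwa [Ne, ZMod.natCast_eq_zero_iff]
  have h1 : ((etaExp p 2 b * b ^ 2 : ℕ) : ZMod p) = ((1 : ℕ) : ZMod p) := by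
    rw [Nat.cast_mul, etaExp_cast, Nat.cast_pow, ← pow_add, Nat.cast_one]
    have : 2 * (p - 2) + 2 = (p - 1) * 2 := by
      have := hp.out.two_le
      omega
    rw [this, pow_mul, ZMod.pow_card_sub_one_eq_one h0, one_pow]
  have h2 := (ZMod.natCast_eq_natCast_iff' _ _ _).mp h1
  rw [h2, Nat.mod_eq_of_lt hp.out.one_lt]

end PowerSum

/-! ### The cyclotomic numbers `1 + ζ + … + ζ^(b-1)` -/

section Cyc

variable {p : ℕ} [hp : Fact p.Prime] {K : Type} [Field K] [NumberField K]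
  {ζ : K} (hζ : IsPrimitiveRoot ζ p)

/-- The cyclotomic number `1 + ζ + … + ζ^(b-1) = (1-ζ^b)/(1-ζ)` of `𝓞 K`. -/
noncomputable def cyc (b : ℕ) : 𝓞 K := ∑ i ∈ range b, hζ.toInteger ^ i

theorem one_sub_mul_cyc (b : ℕ) : (1 - hζ.toInteger) * cyc hζ b = 1 - hζ.toInteger ^ b :=
  mul_neg_geom_sum _ _

theorem one_sub_zeta_ne_zero : (1 - hζ.toInteger : 𝓞 K) ≠ 0 := by
  intro h
  have h1 : hζ.toInteger = 1 := (sub_eq_zero.mp h).symm
  have h2 := hζ.toInteger_isPrimitiveRoot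
  rw [h1] at h2
  exact hp.out.one_lt.ne' (IsPrimitiveRoot.one_left_iff.mp h2)

theorem zeta_pow_mod (b : ℕ) : hζ.toInteger ^ (b % p) = hζ.toInteger ^ b :=
  (pow_eq_pow_mod b hζ.toInteger_isPrimitiveRoot.pow_eq_one).symm

theorem cyc_mod (b : ℕ) : cyc hζ (b % p) = cyc hζ b := by
  apply mul_left_cancel₀ (one_sub_zeta_ne_zero hζ)
  rw [one_sub_mul_cyc, one_sub_mul_cyc, zeta_pow_mod]

theorem isUnit_cyc {b : ℕ} (hb : ¬ p ∣ b) : IsUnit (cyc hζ b) :=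
  hζ.toInteger_isPrimitiveRoot.geom_sum_isUnit hp.out.two_le
    ((Nat.Prime.coprime_iff_not_dvd hp.out).mpr hb).symm

/-- `cyc b` as a unit (junk value `1` when `p ∣ b`). -/
noncomputable def cycU (b : ℕ) : (𝓞 K)ˣ :=
  if hb : ¬ p ∣ b then (isUnit_cyc hζ hb).unit else 1

theorem cycU_val {b : ℕ} (hb : ¬ p ∣ b) : ((cycU hζ b : (𝓞 K)ˣ) : 𝓞 K) = cyc hζ b := by
  unfold cycU
  rw [dif_pos hb]
  rfl

theorem cycU_mod (b : ℕ) : cycU hζ (b % p) = cycU hζ b := by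
  by_cases hb : p ∣ b
  · have hb' : p ∣ b % p := (Nat.dvd_mod_iff (dvd_refl p)).mpr hb
    unfold cycU
    rw [dif_neg (not_not.mpr hb), dif_neg (not_not.mpr hb')]
  · have hb' : ¬ p ∣ b % p := fun h => hb ((Nat.dvd_mod_iff (dvd_refl p)).mp h)
    apply Units.ext
    rw [cycU_val hζ hb, cycU_val hζ hb', cyc_mod]

/-! ### Galois action -/

theorem galRing_zeta {σ : K ≃ₐ[ℚ] K} {c : ℕ} (hσ : σ ζ = ζ ^ c) :
    galRing K σ hζ.toInteger = hζ.toInteger ^ c := by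
  apply RingOfIntegers.ext
  rw [galRing_apply]
  have h : ((hζ.toInteger : 𝓞 K) : K) = ζ := hζ.coe_toInteger
  have h' : ((hζ.toInteger ^ c : 𝓞 K) : K) = ((hζ.toInteger : 𝓞 K) : K) ^ c :=
    map_pow (algebraMap (𝓞 K) K) _ _
  exact (congrArg σ h).trans (hσ.trans ((congrArg (· ^ c) h.symm).trans h'.symm))

include hζ in
theorem not_dvd_of_map_zeta {σ : K ≃ₐ[ℚ] K} {c : ℕ} (hσ : σ ζ = ζ ^ c) : ¬ p ∣ c := by
  rintro ⟨k, rfl⟩
  rw [pow_mul, hζ.pow_eq_one, one_pow] at hσ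
  have h1 : ζ = 1 := by
    have := congrArg σ.symm hσ
    simpa using this
  rw [h1] at hζ
  exact hp.out.one_lt.ne' (IsPrimitiveRoot.one_left_iff.mp hζ)

theorem galRing_cyc_mul {σ : K ≃ₐ[ℚ] K} {c : ℕ} (hσ : σ ζ = ζ ^ c) (b : ℕ) :
    galRing K σ (cyc hζ b) * cyc hζ c = cyc hζ (c * b) := by
  apply mul_left_cancel₀ (one_sub_zeta_ne_zero hζ)
  have h1 : galRing K σ (1 - hζ.toInteger) = 1 - hζ.toInteger ^ c := by
    rw [map_sub, map_one, galRing_zeta hζ hσ]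
  calc (1 - hζ.toInteger) * (galRing K σ (cyc hζ b) * cyc hζ c)
      = galRing K σ (cyc hζ b) * ((1 - hζ.toInteger) * cyc hζ c) := by ring
    _ = galRing K σ (cyc hζ b) * galRing K σ (1 - hζ.toInteger) := by
        rw [one_sub_mul_cyc, h1]
    _ = galRing K σ ((1 - hζ.toInteger) * cyc hζ b) := by rw [map_mul, mul_comm]
    _ = 1 - hζ.toInteger ^ (c * b) := by
        rw [one_sub_mul_cyc, map_sub, map_one, map_pow, galRing_zeta hζ hσ, pow_mul]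
    _ = (1 - hζ.toInteger) * cyc hζ (c * b) := (one_sub_mul_cyc hζ _).symm

/-- The action of `σ` on units of `𝓞 K`. -/
noncomputable def galUnits (σ : K ≃ₐ[ℚ] K) : (𝓞 K)ˣ →* (𝓞 K)ˣ :=
  Units.map ((galRing K σ : 𝓞 K →+* 𝓞 K) : 𝓞 K →* 𝓞 K)

theorem galUnits_val (σ : K ≃ₐ[ℚ] K) (u : (𝓞 K)ˣ) :
    ((galUnits σ u : (𝓞 K)ˣ) : 𝓞 K) = galRing K σ (u : 𝓞 K) := rfl

theorem galUnits_cycU_mul {σ : K ≃ₐ[ℚ] K} {c : ℕ} (hσ : σ ζ = ζ ^ c) {b : ℕ} (hb : ¬ p ∣ b) :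
    galUnits σ (cycU hζ b) * cycU hζ c = cycU hζ (c * b) := by
  have hc := not_dvd_of_map_zeta hζ hσ
  have hcb : ¬ p ∣ c * b := fun h => (hp.out.dvd_mul.mp h).elim hc hb
  apply Units.ext
  rw [Units.val_mul, galUnits_val, cycU_val hζ hb, cycU_val hζ hc, cycU_val hζ hcb,
    galRing_cyc_mul hζ hσ]

end Cyc

/-! ### `p`-th powers of units -/

section PowQuot

variable {G : Type*} [CommGroup G] (p : ℕ)

/-- The subgroup of `p`-th powers. -/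
def powSub : Subgroup G := (powMonoidHom p : G →* G).range

theorem mem_powSub {x : G} : x ∈ powSub (G := G) p ↔ ∃ y : G, y ^ p = x := by
  unfold powSub
  rw [MonoidHom.mem_range]
  rfl

theorem quot_pow_eq_one (x : G ⧸ powSub (G := G) p) : x ^ p = 1 := by
  induction x using QuotientGroup.induction_on with
  | H g =>
    rw [← QuotientGroup.mk_pow, QuotientGroup.eq_one_iff]
    exact (mem_powSub p).mpr ⟨g, rfl⟩

theorem quot_pow_congr (x : G ⧸ powSub (G := G) p) {a b : ℕ} (h : a % p = b % p) :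
    x ^ a = x ^ b := by
  rw [pow_eq_pow_mod a (quot_pow_eq_one p x), pow_eq_pow_mod b (quot_pow_eq_one p x), h]

theorem quot_pow_of_dvd (x : G ⧸ powSub (G := G) p) {a : ℕ} (h : p ∣ a) : x ^ a = 1 := by
  obtain ⟨k, rfl⟩ := h
  rw [pow_mul, quot_pow_eq_one, one_pow]

/-- Two elements with the same class modulo `p`-th powers differ by a `p`-th power. -/
theorem exists_pow_of_mk_eq {x y : G}
    (h : (QuotientGroup.mk x : G ⧸ powSub (G := G) p) = QuotientGroup.mk y) :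
    ∃ ε : G, x = y * ε ^ p := by
  have h1 := QuotientGroup.eq.mp h.symm
  obtain ⟨ε, hε⟩ := (mem_powSub p).mp h1
  exact ⟨ε, by rw [hε]; group⟩

end PowQuot

/-! ### The unit `η₂` -/

section Eta

variable {p : ℕ} [hp : Fact p.Prime] {K : Type} [Field K] [NumberField K]
  {ζ : K} (hζ : IsPrimitiveRoot ζ p)

/-- The normalised `ω²` cyclotomic unit `∏_{0<b<p} ((1-ζ^b)/(1-ζ))^(m b)`. -/
noncomputable def eta2 : (𝓞 K)ˣ := ∏ b ∈ Ico 1 p, cycU hζ b ^ etaExp p 2 b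

theorem not_dvd_of_mem_Ico {b : ℕ} (hb : b ∈ Ico 1 p) : ¬ p ∣ b := by
  have := Finset.mem_Ico.mp hb
  exact Nat.not_dvd_of_pos_of_lt (by omega) this.2

/-- `etaRaw = η₂ · (1-ζ)^(∑ m_b)`. -/
theorem etaRaw_eq_mul :
    etaRaw p K hζ.toInteger (etaExp p 2) =
      ((eta2 hζ : (𝓞 K)ˣ) : 𝓞 K) * (1 - hζ.toInteger) ^ (∑ b ∈ Ico 1 p, etaExp p 2 b) := by
  unfold etaRaw eta2
  rw [Units.coe_prod, ← Finset.prod_pow_eq_pow_sum, ← Finset.prod_mul_distrib]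
  refine Finset.prod_congr rfl fun b hb => ?_
  rw [Units.val_pow_eq_pow_val, cycU_val hζ (not_dvd_of_mem_Ico hb), ← mul_pow, mul_comm,
    one_sub_mul_cyc]

/-- `etaRaw = η₂ · ((1-ζ)^M)^p` for `p ≥ 5`. -/
theorem exists_etaRaw_eq (h5 : 5 ≤ p) : ∃ M : ℕ,
    etaRaw p K hζ.toInteger (etaExp p 2) =
      ((eta2 hζ : (𝓞 K)ˣ) : 𝓞 K) * ((1 - hζ.toInteger) ^ M) ^ p := by
  obtain ⟨M, hM⟩ := dvd_sum_etaExp (p := p) h5
  refine ⟨M, ?_⟩
  rw [etaRaw_eq_mul, hM, ← pow_mul, mul_comm M p]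

/-- The multiplication-by-`c` permutation of `{1, …, p-1}`. -/
theorem prod_Ico_mul_mod {M : Type*} [CommMonoid M] {c : ℕ} (hc : ¬ p ∣ c) (g : ℕ → M) :
    ∏ b ∈ Ico 1 p, g ((c * b) % p) = ∏ b ∈ Ico 1 p, g b := by
  have hcop : Nat.Coprime c p := ((Nat.Prime.coprime_iff_not_dvd hp.out).mpr hc).symm
  obtain ⟨d, -, hd⟩ := Nat.exists_mul_mod_eq_one_of_coprime hcop hp.out.one_lt
  have hmem : ∀ (e : ℕ), ¬ p ∣ e → ∀ b ∈ Ico 1 p, (e * b) % p ∈ Ico 1 p := by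
    intro e he b hb
    have h1 : ¬ p ∣ e * b := fun h => (hp.out.dvd_mul.mp h).elim he (not_dvd_of_mem_Ico hb)
    have h2 : (e * b) % p ≠ 0 := fun h => h1 (Nat.dvd_of_mod_eq_zero h)
    have h3 : (e * b) % p < p := Nat.mod_lt _ hp.out.pos
    exact Finset.mem_Ico.mpr ⟨by omega, h3⟩
  have hd' : ¬ p ∣ d := by
    rintro ⟨k, rfl⟩
    rw [← mul_assoc, mul_comm c p, mul_assoc, Nat.mul_mod_right] at hd
    exact zero_ne_one hd
  have hinv : ∀ b ∈ Ico 1 p, (d * ((c * b) % p)) % p = b := by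
    intro b hb
    have hb' := Finset.mem_Ico.mp hb
    rw [Nat.mul_mod, Nat.mod_mod, ← Nat.mul_mod, ← mul_assoc, mul_comm d c, Nat.mul_mod, hd,
      one_mul, Nat.mod_mod, Nat.mod_eq_of_lt hb'.2]
  have hinv' : ∀ b ∈ Ico 1 p, (c * ((d * b) % p)) % p = b := by
    intro b hb
    have hb' := Finset.mem_Ico.mp hb
    rw [Nat.mul_mod, Nat.mod_mod, ← Nat.mul_mod, ← mul_assoc, Nat.mul_mod, hd,
      one_mul, Nat.mod_mod, Nat.mod_eq_of_lt hb'.2]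
  exact Finset.prod_nbij' (fun b => (c * b) % p) (fun b => (d * b) % p)
    (hmem c hc) (hmem d hd') hinv hinv' (fun _ _ => rfl)

/-- `m_b ≡ c² · m_{cb}` modulo `p`. -/
theorem etaExp_mul_mod {c : ℕ} (hc : ¬ p ∣ c) (b : ℕ) :
    etaExp p 2 b % p = (etaExp p 2 ((c * b) % p) * c ^ 2) % p := by
  have hc0 : (c : ZMod p) ≠ 0 := by rwa [Ne, ZMod.natCast_eq_zero_iff]
  apply (ZMod.natCast_eq_natCast_iff' _ _ _).mp
  have this : 2 * (p - 2) + 2 = (p - 1) * 2 := by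
    have := hp.out.two_le
    omega
  have h1 : (c : ZMod p) ^ (2 * (p - 2)) * (c : ZMod p) ^ 2 = 1 := by
    rw [← pow_add, this, pow_mul, ZMod.pow_card_sub_one_eq_one hc0, one_pow]
  rw [Nat.cast_mul, etaExp_cast, etaExp_cast, ZMod.natCast_mod, Nat.cast_mul, Nat.cast_pow,
    mul_pow]
  linear_combination (-((b : ZMod p) ^ (2 * (p - 2)))) * h1

/-- `σ(η₂) ≡ η₂^(c²)` modulo `p`-th powers of units. -/
theorem galUnits_eta2_mk (h5 : 5 ≤ p) {σ : K ≃ₐ[ℚ] K} {c : ℕ} (hσ : σ ζ = ζ ^ c) :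
    (QuotientGroup.mk (galUnits σ (eta2 hζ)) : (𝓞 K)ˣ ⧸ powSub (G := (𝓞 K)ˣ) p) =
      QuotientGroup.mk (eta2 hζ ^ (c ^ 2)) := by
  have hc := not_dvd_of_map_zeta hζ hσ
  set q : (𝓞 K)ˣ →* (𝓞 K)ˣ ⧸ powSub (G := (𝓞 K)ˣ) p := QuotientGroup.mk' _ with hq
  change q (galUnits σ (eta2 hζ)) = q (eta2 hζ ^ (c ^ 2))
  have key : ∀ b ∈ Ico 1 p, q (galUnits σ (cycU hζ b)) ^ etaExp p 2 b =
      (q (cycU hζ ((c * b) % p)) ^ etaExp p 2 ((c * b) % p)) ^ (c ^ 2) *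
        (q (cycU hζ c))⁻¹ ^ etaExp p 2 b := by
    intro b hb
    have h1 := galUnits_cycU_mul hζ hσ (not_dvd_of_mem_Ico hb)
    have h2 : q (galUnits σ (cycU hζ b)) = q (cycU hζ ((c * b) % p)) * (q (cycU hζ c))⁻¹ := by
      rw [cycU_mod, ← h1, map_mul, mul_inv_cancel_right]
    rw [h2, mul_pow, ← pow_mul]
    congr 1
    exact quot_pow_congr p _ (etaExp_mul_mod hc b)
  have hR : q (eta2 hζ ^ (c ^ 2)) = (∏ b ∈ Ico 1 p, q (cycU hζ b) ^ etaExp p 2 b) ^ (c ^ 2) := by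
    unfold eta2
    rw [map_pow, map_prod]
    simp_rw [map_pow]
  have hL : q (galUnits σ (eta2 hζ)) =
      ∏ b ∈ Ico 1 p, q (galUnits σ (cycU hζ b)) ^ etaExp p 2 b := by
    unfold eta2
    rw [map_prod, map_prod]
    simp_rw [map_pow]
  rw [hR, hL, Finset.prod_congr rfl key, Finset.prod_mul_distrib, Finset.prod_pow_eq_pow_sum,
    quot_pow_of_dvd p _ (dvd_sum_etaExp h5), mul_one, Finset.prod_pow,
    prod_Ico_mul_mod hc (fun b => q (cycU hζ b) ^ etaExp p 2 b)]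

/-- `η₂` is an `ω²`-eigen unit. -/
theorem isEigenUnit_eta2 (h5 : 5 ≤ p) : IsEigenUnit p K ζ (eta2 hζ) := by
  intro σ c hσ
  obtain ⟨ε, hε⟩ := exists_pow_of_mk_eq p (galUnits_eta2_mk hζ h5 hσ)
  refine ⟨ε, ?_⟩
  have h1 := congrArg (fun u : (𝓞 K)ˣ => ((u : 𝓞 K) : K)) hε
  simp only [galUnits_val, galRing_apply, Units.val_mul, Units.val_pow_eq_pow_val, map_mul,
    map_pow] at h1
  exact h1

end Eta

end Fermat.Agent.S14.ULog9
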