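/-
S14 / K4 (ULOG), second seat (helper9), Part Y-2.

`UnitStatement p K` (CoreIface) from
* the UDIR export for `k = 2` (`ω²`-eigenspace of `E/E^p` at most one-dimensional), and
* `kell hζ 1 η₂ ≠ 0` (Kummer's second logarithmic differential quotient of `η₂`).
Also `EtaNotPowStatement p K` from `kell hζ 1 η₂ ≠ 0`.
-/
import Mathlib
import Fermat.Agent.S14.CoreIface
import Fermat.Agent.S14.ULog9.Eta
import Fermat.Agent.FLTReg.KummerLemmaDlog

set_option autoImplicit false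
set_option linter.unusedSectionVars false

namespace Fermat.Agent.S14.ULog9

open NumberField Fermat.Agent.FLTReg.Dlog

variable (p : ℕ) [hp : Fact p.Prime] (K : Type) [Field K] [NumberField K]
  [IsCyclotomicExtension {p} ℚ K]

/-- The UDIR export for `k = 2`: two `ω²`-eigen units, the first not a `p`-th power; then the
second is a power of the first modulo `p`-th powers. -/
def UDirTwoStatement : Prop :=
  5 ≤ p → ∀ (ζ : K), IsPrimitiveRoot ζ p → ∀ (u v : (𝓞 K)ˣ), IsEigenUnit p K ζ u → IsEigenUnit p K ζ v →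
    (¬ ∃ w : (𝓞 K)ˣ, u = w ^ p) → ∃ (j : ℕ) (w : (𝓞 K)ˣ), v = u ^ j * w ^ p

/-- The ULOG value: Kummer's second logarithmic differential quotient of `η₂` is non-zero. -/
def KellEtaStatement : Prop :=
  5 ≤ p → ∀ (ζ : K) (hζ : IsPrimitiveRoot ζ p), kell hζ 1 (eta2 hζ) ≠ 0

variable {p K}

theorem kell_pow {ζ : K} (hζ : IsPrimitiveRoot ζ p) {j : ℕ} (hj : j + 1 < p - 1) (w : (𝓞 K)ˣ)
    (n : ℕ) : kell hζ j (w ^ n) = (n : ZMod p) * kell hζ j w := by
  induction n with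
  | zero =>
    have h := kell_mul hζ hj (1 : (𝓞 K)ˣ) 1
    rw [mul_one] at h
    have h0 : kell hζ j (1 : (𝓞 K)ˣ) = 0 := by
      have := congrArg (fun x => x - kell hζ j (1 : (𝓞 K)ˣ)) h
      simpa using this.symm
    rw [pow_zero, h0, Nat.cast_zero, zero_mul]
  | succ n ih =>
    rw [pow_succ, kell_mul hζ hj, ih, Nat.cast_succ]
    ring

theorem kell_pow_p {ζ : K} (hζ : IsPrimitiveRoot ζ p) {j : ℕ} (hj : j + 1 < p - 1)
    (w : (𝓞 K)ˣ) : kell hζ j (w ^ p) = 0 := by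
  rw [kell_pow hζ hj, ZMod.natCast_self, zero_mul]

/-- `η₂` is not a `p`-th power of a unit. -/
theorem eta2_not_pow (hk : KellEtaStatement p K) (h5 : 5 ≤ p) {ζ : K}
    (hζ : IsPrimitiveRoot ζ p) : ¬ ∃ w : (𝓞 K)ˣ, eta2 hζ = w ^ p := by
  rintro ⟨w, hw⟩
  apply hk h5 ζ hζ
  rw [hw, kell_pow_p hζ (by omega)]

/-- **K4b + K5.** `UnitStatement` from the UDIR export and the `kell` value. -/
theorem unitStatement_of (hU : UDirTwoStatement p K) (hk : KellEtaStatement p K) :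
    UnitStatement p K := by
  intro h5 ζ hζ η hη hn
  obtain ⟨n, hn⟩ := hn
  have hj : 1 + 1 < p - 1 := by omega
  obtain ⟨j, w, hjw⟩ := hU h5 ζ hζ (eta2 hζ) η (isEigenUnit_eta2 hζ h5) hη (eta2_not_pow hk h5 hζ)
  have h0 : kell hζ 1 η = 0 := kell_of_dvd_sub hζ hj η n hn
  rw [hjw, kell_mul hζ hj, kell_pow hζ hj, kell_pow_p hζ hj, add_zero] at h0
  have hj0 : (j : ZMod p) = 0 := by
    rcases mul_eq_zero.mp h0 with h | h
    · exact h
    · exact absurd h (hk h5 ζ hζ)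
  obtain ⟨k, rfl⟩ := (ZMod.natCast_eq_zero_iff j p).mp hj0
  exact ⟨eta2 hζ ^ k * w, by rw [hjw, mul_pow, ← pow_mul, mul_comm k p]⟩

/-- **K4a.** `EtaNotPowStatement` from the `kell` value. -/
theorem etaNotPowStatement_of (hk : KellEtaStatement p K) : EtaNotPowStatement p K := by
  rintro h5 ζ hζ ⟨v, hv⟩
  obtain ⟨M, hM⟩ := exists_etaRaw_eq hζ h5
  set lam : 𝓞 K := 1 - hζ.toInteger with hlam
  have hlam0 : (lam : K) ≠ 0 := by
    rw [Ne, RingOfIntegers.coe_eq_zero_iff]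
    exact one_sub_zeta_ne_zero hζ
  -- `η₂ = (v / λ^M)^p` in `K`
  have h1 : (v / (lam : K) ^ M) ^ p = (((eta2 hζ : (𝓞 K)ˣ) : 𝓞 K) : K) := by
    have e : ((((eta2 hζ : (𝓞 K)ˣ) : 𝓞 K) * (lam ^ M) ^ p : 𝓞 K) : K) =
        (((eta2 hζ : (𝓞 K)ˣ) : 𝓞 K) : K) * ((lam : K) ^ M) ^ p := by
      simp only [map_mul, map_pow]
    rw [div_pow, hv, hM, e]
    field_simp
  -- `v / λ^M` is integral, hence in `𝓞 K`
  have hint : IsIntegral ℤ (v / (lam : K) ^ M) := by
    have hp0 : 0 < p := hp.out.pos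
    refine IsIntegral.of_pow hp0 ?_
    rw [h1]
    exact RingOfIntegers.isIntegral_coe _
  obtain ⟨w, hw⟩ : ∃ w : 𝓞 K, (w : K) = v / (lam : K) ^ M := ⟨⟨_, hint⟩, rfl⟩
  have h2 : w ^ p = ((eta2 hζ : (𝓞 K)ˣ) : 𝓞 K) := by
    apply RingOfIntegers.ext
    rw [← h1, ← hw]
    simp only [map_pow]
  have hwu : IsUnit w := by
    have : IsUnit (w ^ p) := by rw [h2]; exact Units.isUnit _
    exact (isUnit_pow_iff hp.out.ne_zero).mp this
  refine eta2_not_pow hk h5 hζ ⟨hwu.unit, ?_⟩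
  apply Units.ext
  rw [Units.val_pow_eq_pow_val, IsUnit.unit_spec, h2]

end Fermat.Agent.S14.ULog9
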