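/-
S14 / K4 (ULOG), second seat (helper9), Part Y-3.

`kell hζ 1 η₂ ≠ 0`, deduced from helper38's landed `ULog38` (`bigU = η₂³ · w^p`,
`kell hζ 1 bigU ≠ 0`), hence `UnitStatement p K` from the UDIR export alone.
-/
import Mathlib
import Fermat.Agent.S14.CoreIface
import Fermat.Agent.S14.ULog9.Unit
import Fermat.Agent.S14.ULog38

set_option autoImplicit false
set_option linter.unusedSectionVars false

namespace Fermat.Agent.S14.ULog9

open NumberField Fermat.Agent.FLTReg.Dlog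

variable {p : ℕ} [hp : Fact p.Prime] {K : Type} [Field K] [NumberField K]
  [IsCyclotomicExtension {p} ℚ K]

/-- `bigU = η₂³ · w^p` with `w` a unit. -/
theorem exists_bigU_eq {ζ : K} (hζ : IsPrimitiveRoot ζ p) (h5 : 5 ≤ p) (hp2 : p ≠ 2) :
    ∃ w : (𝓞 K)ˣ, ULog38.bigU hζ hp2 (etaExp p 2) = eta2 hζ ^ 3 * w ^ p := by
  obtain ⟨w, hw⟩ := ULog38.toK_bigU_mul_etaK hζ hp2 (ULog38.etaExp_spec (p := p) 2)
  obtain ⟨M, hM⟩ := exists_etaRaw_eq hζ h5
  -- `λ = 1 - ζ` as a unit of `K`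
  have hlam0 : (((1 - hζ.toInteger : 𝓞 K)) : K) ≠ 0 := by
    rw [Ne, RingOfIntegers.coe_eq_zero_iff]
    exact one_sub_zeta_ne_zero hζ
  set lamK : Kˣ := Units.mk0 _ hlam0 with hlamK
  -- `etaK = toK η₂ · (λ^M)^p`
  have hK : ULog38.etaK hζ (etaExp p 2) = ULog38.toK (eta2 hζ) * (lamK ^ M) ^ p := by
    apply Units.ext
    rw [ULog38.etaK_coe, hM, Units.val_mul, ULog38.toK_coe, Units.val_pow_eq_pow_val,
      Units.val_pow_eq_pow_val, hlamK, Units.val_mk0]
    simp only [map_mul, map_pow]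
  have h1 : ULog38.toK (ULog38.bigU hζ hp2 (etaExp p 2)) =
      ULog38.etaK hζ (etaExp p 2) ^ 3 * w ^ p := by
    have : ULog38.toK (ULog38.bigU hζ hp2 (etaExp p 2)) * ULog38.etaK hζ (etaExp p 2) =
        (ULog38.etaK hζ (etaExp p 2) ^ 3 * w ^ p) * ULog38.etaK hζ (etaExp p 2) := by
      rw [hw, pow_succ (ULog38.etaK hζ (etaExp p 2)) 3]
      exact mul_right_comm _ _ _
    exact mul_right_cancel this
  have h2 : ULog38.toK (ULog38.bigU hζ hp2 (etaExp p 2) * (eta2 hζ ^ 3)⁻¹) =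
      ((lamK ^ M) ^ 3 * w) ^ p := by
    rw [map_mul, map_inv, map_pow, h1, hK]
    generalize ULog38.toK (eta2 hζ) = a
    generalize lamK ^ M = l
    rw [mul_inv_eq_iff_eq_mul, mul_pow, mul_pow, ← pow_mul, ← pow_mul, mul_comm p 3, mul_assoc,
      mul_comm]
  obtain ⟨w', hw'⟩ := ULog38.exists_unit_pow_of_toK _ _ h2
  exact ⟨w', by rw [← hw', mul_comm (ULog38.bigU _ _ _), mul_inv_cancel_left]⟩

/-- **ULOG value.** Kummer's second logarithmic differential quotient of `η₂` is non-zero. -/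
theorem kellEtaStatement : KellEtaStatement p K := by
  intro h5 ζ hζ h0
  have hp2 : p ≠ 2 := by omega
  have hj : 1 + 1 < p - 1 := by omega
  obtain ⟨w, hw⟩ := exists_bigU_eq hζ h5 hp2
  apply ULog38.kell_bigU_ne_zero hζ hp2 hj (ULog38.etaExp_spec (p := p) 2)
  rw [hw, kell_mul hζ hj, kell_pow hζ hj, kell_pow_p hζ hj, h0, mul_zero, add_zero]

/-- **K4b + K5.** `UnitStatement` from the UDIR export (`k = 2`). -/
theorem unitStatement_of_udir (hU : UDirTwoStatement p K) : UnitStatement p K :=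
  unitStatement_of hU kellEtaStatement

end Fermat.Agent.S14.ULog9
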