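/-
S14 / K4b + K5 closed: `UnitStatement p K` (CoreIface), unconditional.
= `ULog9.unitStatement_of_udir` (helper9) applied to `UDir99.udir_isEigenUnit` (helper99).
-/
import Mathlib
import Fermat.Agent.S14.CoreIface
import Fermat.Agent.S14.ULog9.KellEta
import Fermat.Agent.S14.UDir99.Iface

set_option autoImplicit false

namespace Fermat.Agent.S14.ULog9

open NumberField

/-- **K4b + K5.** A unit of `ℚ(ζ_p)` (`p ≥ 5`) in the `ω²`-eigenspace of `E/E^p` which is congruent
to a rational integer modulo `p` is a `p`-th power. -/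
theorem unitStmt (p : ℕ) [Fact p.Prime] (K : Type) [Field K] [NumberField K]
    [IsCyclotomicExtension {p} ℚ K] : UnitStatement p K :=
  unitStatement_of_udir fun h5 ζ hζ u v hu hv hnp =>
    UDir99.udir_isEigenUnit p K h5 ζ hζ u v hu hv hnp

end Fermat.Agent.S14.ULog9
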